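/-
Programme FF (S19), chapter KER (F4, lead): **the kernel of reduction is a polydisc**.

Abstract over helper7's `RedDatum` (`FF/RED/RedDatum7`, `FF/RED/Disc7`).

* `exists_redFun` : every nonzero `y : F` has a "reduction" `y~ ≠ 0` in `Ft` with
  `mapDomain r (div y) = div y~` (Gauss normalisation + `compat`).
* `NSSystem D g` : `g` centres `P i` in pairwise distinct residue discs, good uniformizers `u i`,
  the non-speciality (NS) of the reduced divisor `D~0 = Σ (r (P i))`, a disc `Q0` off the centres.
* `const_of_le` : for EVERY effective `E` with `mapDomain r E = D~0`, `L(E) = L` (no discreteness of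
  the valuation ring needed).
* `pt S i c` : the place of the disc of `P i` with `u i`-coordinate `c ∈ m_A`; `Ediv S T`,
  `kap S T : Pic0 L F` the class of `E(T) − D0`.
* `kap_injective`, `exists_kap_eq` (surjectivity onto the classes with principal reduction, from
  Riemann–Roch in the form `hRR`).
-/
import Mathlib
import Fermat.Agent.FF.RED.Disc7

set_option autoImplicit false
set_option linter.unusedSectionVars false
set_option linter.style.longLine false

namespace Fermat.Agent.FF.KER.Ker0

open AlgebraicCurve Fermat.Agent.X0.FF Fermat.Agent.RR.LSpace Fermat.Agent.MW.EMB.Value6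
open Fermat.Agent.FF.RED.RedDatum7 Fermat.Agent.FF.RED.Disc7

noncomputable section

variable {L F k Ft : Type*} [Field L] [Field F] [Algebra L F] [Field k] [Field Ft] [Algebra k Ft]

/-! ### generalities on `mapDomain` -/

open Classical in
theorem mapDomain_nonneg {α β : Type*} (f : α → β) {v : α →₀ ℤ} (hv : 0 ≤ v) :
    0 ≤ Finsupp.mapDomain f v := by
  intro b
  rw [RedDatum.mapDomain_apply_eq_sum]
  exact Finset.sum_nonneg fun a _ => hv a

open Classical in
/-- If `v ≥ 0` and the image vanishes at `b` then `v` vanishes on the fibre of `b`. -/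
theorem eq_zero_of_mapDomain_eq_zero {α β : Type*} (f : α → β) {v : α →₀ ℤ} (hv : 0 ≤ v) {b : β}
    (hb : Finsupp.mapDomain f v b = 0) {a : α} (ha : f a = b) : v a = 0 := by
  rw [RedDatum.mapDomain_apply_eq_sum] at hb
  by_contra hne
  have hmem : a ∈ v.support.filter (fun a => f a = b) := by
    rw [Finset.mem_filter, Finsupp.mem_support_iff]
    exact ⟨hne, ha⟩
  have h1 := (Finset.sum_eq_zero_iff_of_nonneg (fun a _ => hv a)).mp hb a hmem
  exact hne h1

open Classical in
/-- A term of the fibre sum is bounded by the sum, for `v ≥ 0`. -/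
theorem le_mapDomain_apply {α β : Type*} (f : α → β) {v : α →₀ ℤ} (hv : 0 ≤ v) (a : α) :
    v a ≤ Finsupp.mapDomain f v (f a) := by
  rw [RedDatum.mapDomain_apply_eq_sum]
  by_cases h0 : v a = 0
  · rw [h0]; exact Finset.sum_nonneg fun a _ => hv a
  have hmem : a ∈ v.support.filter (fun a' => f a' = f a) := by
    rw [Finset.mem_filter, Finsupp.mem_support_iff]
    exact ⟨h0, rfl⟩
  exact Finset.single_le_sum (f := fun a => v a) (fun a _ => hv a) hmem

open Classical in
/-- Two distinct points of a fibre. -/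
theorem add_le_mapDomain_apply {α β : Type*} (f : α → β) {v : α →₀ ℤ} (hv : 0 ≤ v) {a a' : α}
    (hne : a ≠ a') (hf : f a' = f a) : v a + v a' ≤ Finsupp.mapDomain f v (f a) := by
  by_cases h0 : v a = 0
  · rw [h0, zero_add, ← hf]; exact le_mapDomain_apply f hv a'
  by_cases h0' : v a' = 0
  · rw [h0', add_zero]; exact le_mapDomain_apply f hv a
  rw [RedDatum.mapDomain_apply_eq_sum]
  have hsub : ({a, a'} : Finset α) ⊆ v.support.filter (fun x => f x = f a) := by
    intro x hx
    rw [Finset.mem_insert, Finset.mem_singleton] at hx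
    rw [Finset.mem_filter, Finsupp.mem_support_iff]
    rcases hx with rfl | rfl
    · exact ⟨h0, rfl⟩
    · exact ⟨h0', hf⟩
  have h1 := Finset.sum_le_sum_of_subset_of_nonneg (f := fun x => v x) hsub (fun x _ _ => hv x)
  rwa [Finset.sum_pair hne] at h1

theorem mapDomain_sub' {α β : Type*} (f : α → β) (v w : α →₀ ℤ) :
    Finsupp.mapDomain f (v - w) = Finsupp.mapDomain f v - Finsupp.mapDomain f w :=
  map_sub (Finsupp.mapDomain.addMonoidHom f) v w

/-! ### reduction of functions and of principal divisors -/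

variable (D : RedDatum L F k Ft)

/-- Gauss normalisation with the orders. -/
theorem exists_norm_ord {y : F} (hy : y ≠ 0) :
    ∃ g : D.G, D.red g ≠ 0 ∧ ∀ P : Place L F, P.ord (g : F) = P.ord y := by
  obtain ⟨c, hc, g, hg, hred⟩ := D.norm y hy
  refine ⟨g, hred, fun P => ?_⟩
  rw [hg, P.ord_mul ((map_ne_zero _).mpr hc) hy, ffp_ord_algebraMap, zero_add]

/-- Every nonzero function has a reduction: `mapDomain r (div y) = div y~`. -/
theorem exists_redFun {y : F} (hy : y ≠ 0) :
    ∃ yt : Ft, yt ≠ 0 ∧ ∀ E : Divisor L F, (∀ P, E P = P.ord y) →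
      ∀ Q, Finsupp.mapDomain D.r E Q = Q.ord yt := by
  obtain ⟨g, hred, hord⟩ := exists_norm_ord D hy
  exact ⟨D.red g, hred, fun E hE Q => D.compat g hred E (fun P => by rw [hE P, hord P]) Q⟩

/-- The reduction of a principal divisor is principal. -/
theorem isPrincipal_mapDomain {E : Divisor L F} (hE : Divisor.IsPrincipal E) :
    Divisor.IsPrincipal (Finsupp.mapDomain D.r E) := by
  obtain ⟨y, hy, hEy⟩ := hE
  obtain ⟨yt, hyt, h⟩ := exists_redFun D hy
  exact ⟨yt, hyt, fun Q => h E hEy Q⟩

/-! ### non-special systems of centres -/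

/-- A **non-special system**: `g` centres in pairwise distinct residue discs with good uniformizers,
such that the reduced divisor `D~0 = Σ r (P i)` is non-special (`L(D~0) = k`), and a disc `Q0` off
the centres. -/
structure NSSystem (g : ℕ) where
  P : Fin g → Place L F
  u : Fin g → D.G
  good : ∀ i, IsGoodUnif D (P i) (u i)
  inj : Function.Injective fun i => D.r (P i)
  ns : ∀ f : Ft, f ≠ 0 → (∀ Q' : Place k Ft, (∀ i, D.r (P i) ≠ Q') → 0 ≤ Q'.ord f) →
    (∀ i, -1 ≤ (D.r (P i)).ord f) → ∃ c : k, f = algebraMap k Ft c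
  Q0 : Place k Ft
  hQ0 : ∀ i, D.r (P i) ≠ Q0

variable {D} {g : ℕ} (S : NSSystem D g)

namespace NSSystem

/-- the centres of the reduced discs -/
def Q (i : Fin g) : Place k Ft := D.r (S.P i)

/-- the reduced divisor `D~0`. -/
def redDiv : Divisor k Ft := ∑ i, Finsupp.single (S.Q i) (1 : ℤ)

theorem redDiv_apply_Q (i : Fin g) : S.redDiv (S.Q i) = 1 := by
  classical
  rw [redDiv, Finsupp.finsetSum_apply]
  rw [Finset.sum_eq_single i]
  · simp
  · intro j _ hji
    rw [Finsupp.single_apply, if_neg]
    intro h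
    exact hji (S.inj h)
  · intro h; exact absurd (Finset.mem_univ i) h

theorem redDiv_apply_of_ne {Q' : Place k Ft} (h : ∀ i, S.Q i ≠ Q') : S.redDiv Q' = 0 := by
  classical
  rw [redDiv, Finsupp.finsetSum_apply]
  refine Finset.sum_eq_zero fun i _ => ?_
  rw [Finsupp.single_apply, if_neg (h i)]

theorem redDiv_nonneg : 0 ≤ S.redDiv := by
  classical
  intro Q'
  rw [redDiv, Finsupp.finsetSum_apply]
  refine Finset.sum_nonneg fun i _ => ?_
  rw [Finsupp.single_apply]
  split_ifs <;> simp

/-- (NS) in divisor form: a nonzero function with `div f + D~0 ≥ 0` is a nonzero constant, hence has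
order `0` everywhere. -/
theorem ord_eq_zero_of_le {f : Ft} (hf : f ≠ 0) (h : ∀ Q' : Place k Ft, -(S.redDiv Q') ≤ Q'.ord f)
    (Q' : Place k Ft) : Q'.ord f = 0 := by
  obtain ⟨c, rfl⟩ := S.ns f hf
    (fun Q' hQ' => by have := h Q'; rwa [S.redDiv_apply_of_ne hQ', neg_zero] at this)
    (fun i => by have := h (S.Q i); rwa [S.redDiv_apply_Q] at this)
  exact ffp_ord_algebraMap Q' c

end NSSystem

/-- **`l(E) = 1`** for every effective `E` reducing to the non-special `D~0`: a nonzero function
with `div f + E ≥ 0` is constant.  (No discreteness of `A` is needed: subtract the value at a place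
off the discs, normalise, and count zeros in that disc.) -/
theorem const_of_le (E : Divisor L F) (hE : 0 ≤ E)
    (hEr : ∀ Q', Finsupp.mapDomain D.r E Q' = S.redDiv Q') {f : F} (hf : f ≠ 0)
    (hfE : ∀ P : Place L F, -(E P) ≤ P.ord f) : ∃ c : L, f = algebraMap L F c := by
  classical
  obtain ⟨P0, hP0⟩ := D.r_surj S.Q0
  -- `E` vanishes on the fibre of `Q0`
  have hE0 : ∀ P : Place L F, D.r P = S.Q0 → E P = 0 := fun P hP =>
    eq_zero_of_mapDomain_eq_zero D.r hE
      (by rw [hEr, S.redDiv_apply_of_ne S.hQ0]) hP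
  have hfmem : f ∈ P0.toValuationSubring :=
    ffp_mem_of_ord_nonneg P0 (by have := hfE P0; rw [hE0 P0 hP0, neg_zero] at this; exact this)
  by_contra hcon
  push Not at hcon
  set w0 : L := valF D.HL P0 f with hw0
  have hne : f ≠ algebraMap L F w0 := hcon w0
  set h : F := f - algebraMap L F w0 with hh
  have hh0 : h ≠ 0 := sub_ne_zero.mpr hne
  have hpos : 0 < P0.ord h := ord_sub_valF_pos D.HL P0 hfmem hne
  -- poles of `h` are bounded by `E`
  have hhE : ∀ P : Place L F, -(E P) ≤ P.ord h := by
    intro P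
    have h1 : -(E P) ≤ P.ord f := hfE P
    have h2 : -(E P) ≤ P.ord (-(algebraMap L F w0)) := by
      rw [ffp_ord_neg, ffp_ord_algebraMap]
      have := hE P
      simp only [Finsupp.coe_zero, Pi.zero_apply] at this
      omega
    have := ffp_le_ord_add P h1 h2 (by rw [← sub_eq_add_neg]; exact hh0)
    rwa [← sub_eq_add_neg] at this
  obtain ⟨ht, hht, hred⟩ := exists_redFun D hh0
  have hdiv := hred (divOf D.HL hh0) (fun P => divOf_apply D.HL hh0 P)
  -- the reduction has poles bounded by `D~0`
  have hnn : 0 ≤ Finsupp.mapDomain D.r (divOf D.HL hh0 + E) := by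
    apply mapDomain_nonneg
    intro P
    rw [Finsupp.add_apply, divOf_apply]
    have := hhE P
    simp only [Finsupp.coe_zero, Pi.zero_apply]
    omega
  have hle : ∀ Q' : Place k Ft, -(S.redDiv Q') ≤ Q'.ord ht := by
    intro Q'
    have := hnn Q'
    rw [Finsupp.mapDomain_add, Finsupp.add_apply, hdiv, hEr] at this
    simp only [Finsupp.coe_zero, Pi.zero_apply] at this
    omega
  have hzero := S.ord_eq_zero_of_le hht hle S.Q0
  -- but the fibre sum at `Q0` is positive
  have hsum := hdiv S.Q0
  rw [hzero, RedDatum.mapDomain_apply_eq_sum] at hsum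
  have hmem : P0 ∈ (divOf D.HL hh0).support.filter (fun P => D.r P = S.Q0) := by
    rw [Finset.mem_filter, Finsupp.mem_support_iff, divOf_apply]
    exact ⟨by omega, hP0⟩
  have hnonneg : ∀ P ∈ (divOf D.HL hh0).support.filter (fun P => D.r P = S.Q0),
      0 ≤ divOf D.HL hh0 P := by
    intro P hP
    rw [divOf_apply]
    have := hhE P
    rw [hE0 P (Finset.mem_filter.mp hP).2, neg_zero] at this
    exact this
  have h1 := Finset.single_le_sum hnonneg hmem
  rw [hsum, divOf_apply] at h1
  omega

/-! ### the points of the discs and the divisors `E(T)` -/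

/-- the maximal ideal of `A`, as a type -/
abbrev mA (D : RedDatum L F k Ft) : Type _ := ↥(IsLocalRing.maximalIdeal D.A)

theorem not_isUnit_of_mA (c : mA D) : ¬ IsUnit (c : D.A) := by
  have := c.2
  rwa [IsLocalRing.mem_maximalIdeal, mem_nonunits_iff] at this

namespace NSSystem

/-- the place of the disc of `P i` where `u i` takes the value `c ∈ m_A`. -/
def pt (i : Fin g) (c : mA D) : Place L F :=
  ((S.good i).exists_valF_eq (not_isUnit_of_mA c)).choose

theorem r_pt (i : Fin g) (c : mA D) : D.r (S.pt i c) = S.Q i :=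
  ((S.good i).exists_valF_eq (not_isUnit_of_mA c)).choose_spec.1

theorem valF_pt (i : Fin g) (c : mA D) : valF D.HL (S.pt i c) (S.u i : F) = ((c : D.A) : L) :=
  ((S.good i).exists_valF_eq (not_isUnit_of_mA c)).choose_spec.2

/-- the coordinate of a place of the disc of `P i`. -/
def coord (i : Fin g) {P' : Place L F} (hP' : D.r P' = S.Q i) : mA D :=
  ⟨valA D (S.u i) (S.good i).poleFree hP', by
    rw [IsLocalRing.mem_maximalIdeal, mem_nonunits_iff]
    exact (S.good i).valA_not_isUnit hP'⟩

theorem pt_coord (i : Fin g) {P' : Place L F} (hP' : D.r P' = S.Q i) :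
    S.pt i (S.coord i hP') = P' :=
  (S.good i).eq_of_valF_eq (S.r_pt i _) hP' (by rw [S.valF_pt]; rfl)

theorem coord_pt (i : Fin g) (c : mA D) : S.coord i (S.r_pt i c) = c := by
  apply Subtype.ext
  apply Subtype.ext
  exact S.valF_pt i c

theorem pt_injective (i : Fin g) : Function.Injective (S.pt i) := by
  intro c c' h
  rw [← S.coord_pt i c, ← S.coord_pt i c']
  apply Subtype.ext
  apply Subtype.ext
  show valF D.HL (S.pt i c) (S.u i : F) = valF D.HL (S.pt i c') (S.u i : F)
  rw [h]

theorem pt_zero (i : Fin g) : S.pt i 0 = S.P i := by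
  refine (S.good i).eq_of_valF_eq (S.r_pt i _) rfl ?_
  rw [S.valF_pt]
  symm
  have hmem : (S.u i : F) ∈ (S.P i).toValuationSubring :=
    ffp_mem_of_ord_nonneg _ (by rw [(S.good i).1]; norm_num)
  show valF D.HL (S.P i) (S.u i : F) = 0
  rw [valF_eq_zero_iff D.HL _ hmem]
  right
  rw [(S.good i).1]
  norm_num

/-- the divisor `E(T) = Σ_i (point of the `i`-th disc with coordinate `T i`)`. -/
def Ediv (T : Fin g → mA D) : Divisor L F := ∑ i, Finsupp.single (S.pt i (T i)) (1 : ℤ)

/-- the divisor of centres `D0 = E(0)`. -/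
def D0 : Divisor L F := ∑ i, Finsupp.single (S.P i) (1 : ℤ)

theorem Ediv_zero : S.Ediv 0 = S.D0 := by
  rw [Ediv, D0]
  refine Finset.sum_congr rfl fun i _ => ?_
  rw [Pi.zero_apply, S.pt_zero]

theorem Ediv_nonneg (T : Fin g → mA D) : 0 ≤ S.Ediv T := by
  classical
  intro P
  rw [Ediv, Finsupp.finsetSum_apply]
  refine Finset.sum_nonneg fun i _ => ?_
  rw [Finsupp.single_apply]
  split_ifs <;> simp

theorem mapDomain_Ediv (T : Fin g → mA D) : Finsupp.mapDomain D.r (S.Ediv T) = S.redDiv := by
  rw [Ediv, redDiv, Finsupp.mapDomain_finset_sum]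
  refine Finset.sum_congr rfl fun i _ => ?_
  rw [Finsupp.mapDomain_single, S.r_pt]

theorem degree_Ediv (T : Fin g → mA D) : Divisor.degree (S.Ediv T) = g := by
  rw [Ediv, map_sum]
  simp [degree_single D.HL]

theorem Ediv_apply_pt (T : Fin g → mA D) (i : Fin g) : S.Ediv T (S.pt i (T i)) = 1 := by
  classical
  rw [Ediv, Finsupp.finsetSum_apply, Finset.sum_eq_single i]
  · simp
  · intro j _ hji
    rw [Finsupp.single_apply, if_neg]
    intro h
    apply hji
    apply S.inj
    show S.Q j = S.Q i
    rw [← S.r_pt j (T j), ← S.r_pt i (T i), h]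
  · intro h; exact absurd (Finset.mem_univ i) h

theorem Ediv_injective : Function.Injective S.Ediv := by
  classical
  intro T T' h
  funext i
  have h1 : S.Ediv T' (S.pt i (T i)) = 1 := by rw [← h, S.Ediv_apply_pt]
  -- so `pt i (T i)` is one of the points of `E(T')`
  rw [Ediv, Finsupp.finsetSum_apply] at h1
  have : ∃ j, S.pt j (T' j) = S.pt i (T i) := by
    by_contra hno
    push Not at hno
    rw [Finset.sum_eq_zero (fun j _ => by rw [Finsupp.single_apply, if_neg (hno j)])] at h1
    exact zero_ne_one h1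
  obtain ⟨j, hj⟩ := this
  have hji : j = i := by
    apply S.inj
    show S.Q j = S.Q i
    rw [← S.r_pt j (T' j), ← S.r_pt i (T i), hj]
  subst hji
  exact (S.pt_injective j hj).symm

end NSSystem

/-! ### the parametrisation of the kernel of reduction -/

namespace NSSystem

theorem degree_D0 : Divisor.degree S.D0 = g := by
  rw [← S.Ediv_zero, S.degree_Ediv]

/-- `E(T) − D0` as a divisor of degree zero. -/
def kapDiv (T : Fin g → mA D) : Divisor.degZero (K := L) (F := F) :=
  ⟨S.Ediv T - S.D0, by rw [Divisor.mem_degZero, map_sub, S.degree_Ediv, S.degree_D0, sub_self]⟩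

/-- **the parametrisation** `T ↦ [E(T) − D0]` of the kernel of reduction by the polydisc `m_A^g`. -/
def kap (T : Fin g → mA D) : Pic0 L F := Pic0.mk (S.kapDiv T)

theorem mapDomain_kapDiv (T : Fin g → mA D) :
    Finsupp.mapDomain D.r ((S.kapDiv T : Divisor.degZero (K := L) (F := F)) : Divisor L F) = 0 := by
  show Finsupp.mapDomain D.r (S.Ediv T - S.D0) = 0
  rw [← S.Ediv_zero, mapDomain_sub', S.mapDomain_Ediv, S.mapDomain_Ediv, sub_self]

theorem mk_eq_mk_iff (a b : Divisor.degZero (K := L) (F := F)) :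
    Pic0.mk a = Pic0.mk b ↔ Divisor.IsPrincipal ((b : Divisor L F) - (a : Divisor L F)) := by
  unfold Pic0.mk
  rw [QuotientAddGroup.eq, AddSubgroup.mem_addSubgroupOf, Divisor.mem_principal]
  have : ((-a + b : Divisor.degZero (K := L) (F := F)) : Divisor L F)
      = (b : Divisor L F) - (a : Divisor L F) := by
    push_cast
    abel
  rw [this]

/-- **(K), injectivity.** -/
theorem kap_injective : Function.Injective S.kap := by
  intro T T' h
  rw [kap, kap, mk_eq_mk_iff] at h
  obtain ⟨f, hf, hdiv⟩ := h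
  have hdiv' : ∀ P : Place L F, S.Ediv T' P - S.Ediv T P = P.ord f := by
    intro P
    rw [← hdiv P]
    show _ = (S.Ediv T' - S.D0 - (S.Ediv T - S.D0)) P
    simp only [Finsupp.sub_apply]
    ring
  obtain ⟨c, rfl⟩ := const_of_le S (S.Ediv T) (S.Ediv_nonneg T)
    (fun Q' => by rw [S.mapDomain_Ediv]) hf (fun P => by
      rw [← hdiv' P]
      have := S.Ediv_nonneg T' P
      simp only [Finsupp.coe_zero, Pi.zero_apply] at this
      omega)
  apply S.Ediv_injective
  ext P
  have := hdiv' P
  rw [ffp_ord_algebraMap] at this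
  omega

/-- **(K), surjectivity**: a class of degree zero whose reduction is principal is `kap T`.  The
hypothesis `hRR` is Riemann's inequality `l(E) ≥ 1` for `deg E = g`. -/
theorem exists_kap_eq
    (hRR : ∀ E : Divisor L F, Divisor.degree E = g → ∃ f : F, f ≠ 0 ∧ ∀ P, -(E P) ≤ P.ord f)
    (D' : Divisor.degZero (K := L) (F := F))
    (hD' : Divisor.IsPrincipal (Finsupp.mapDomain D.r (D' : Divisor L F))) :
    ∃ T : Fin g → mA D, S.kap T = Pic0.mk D' := by
  classical
  obtain ⟨f, hf, hfE⟩ := hRR ((D' : Divisor L F) + S.D0) (by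
    rw [map_add, S.degree_D0, (Divisor.mem_degZero.mp D'.2), zero_add])
  set E : Divisor L F := divOf D.HL hf + ((D' : Divisor L F) + S.D0) with hEdef
  have hE : 0 ≤ E := by
    intro P
    rw [hEdef, Finsupp.add_apply, divOf_apply]
    have := hfE P
    simp only [Finsupp.coe_zero, Pi.zero_apply]
    omega
  -- the reduction of `E` is `D~0`
  obtain ⟨ft, hft, hfred⟩ := exists_redFun D hf
  obtain ⟨yt, hyt, hyred⟩ := hD'
  have hmapE : ∀ Q', Finsupp.mapDomain D.r E Q' = Q'.ord (ft * yt) + S.redDiv Q' := by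
    intro Q'
    rw [hEdef, Finsupp.mapDomain_add, Finsupp.mapDomain_add, Finsupp.add_apply, Finsupp.add_apply,
      hfred _ (fun P => divOf_apply D.HL hf P), hyred Q', ← S.Ediv_zero, S.mapDomain_Ediv,
      Q'.ord_mul hft hyt]
    ring
  have hnn := mapDomain_nonneg D.r hE
  have hzero : ∀ Q' : Place k Ft, Q'.ord (ft * yt) = 0 :=
    S.ord_eq_zero_of_le (mul_ne_zero hft hyt) (fun Q' => by
      have := hnn Q'
      rw [hmapE] at this
      simp only [Finsupp.coe_zero, Pi.zero_apply] at this
      omega)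
  have hEr : ∀ Q', Finsupp.mapDomain D.r E Q' = S.redDiv Q' := by
    intro Q'
    rw [hmapE, hzero, zero_add]
  -- a point of `E` in each disc
  have hex : ∀ i : Fin g, ∃ P' : Place L F, D.r P' = S.Q i ∧ 1 ≤ E P' := by
    intro i
    have h1 := hEr (S.Q i)
    rw [S.redDiv_apply_Q, RedDatum.mapDomain_apply_eq_sum] at h1
    have hne : (E.support.filter (fun P => D.r P = S.Q i)).Nonempty := by
      rw [Finset.nonempty_iff_ne_empty]
      intro hemp
      rw [hemp, Finset.sum_empty] at h1
      exact zero_ne_one h1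
    obtain ⟨P', hP'⟩ := hne
    rw [Finset.mem_filter, Finsupp.mem_support_iff] at hP'
    refine ⟨P', hP'.2, ?_⟩
    have := hE P'
    simp only [Finsupp.coe_zero, Pi.zero_apply] at this
    omega
  choose P' hP'r hP'E using hex
  have hP'inj : Function.Injective P' := by
    intro i j hij
    apply S.inj
    show S.Q i = S.Q j
    rw [← hP'r i, ← hP'r j, hij]
  set E' : Divisor L F := ∑ i, Finsupp.single (P' i) (1 : ℤ) with hE'def
  have hE'apply : ∀ P, E' P = if ∃ i, P' i = P then 1 else 0 := by
    intro P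
    rw [hE'def, Finsupp.finsetSum_apply]
    split_ifs with h
    · obtain ⟨i, rfl⟩ := h
      rw [Finset.sum_eq_single i]
      · simp
      · intro j _ hji
        rw [Finsupp.single_apply, if_neg]
        intro h
        exact hji (hP'inj h)
      · intro h; exact absurd (Finset.mem_univ i) h
    · push Not at h
      exact Finset.sum_eq_zero fun i _ => by rw [Finsupp.single_apply, if_neg (h i)]
  have hE'r : Finsupp.mapDomain D.r E' = S.redDiv := by
    rw [hE'def, redDiv, Finsupp.mapDomain_finset_sum]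
    refine Finset.sum_congr rfl fun i _ => ?_
    rw [Finsupp.mapDomain_single, hP'r]
  have hdiff : 0 ≤ E - E' := by
    intro P
    rw [Finsupp.sub_apply, hE'apply]
    simp only [Finsupp.coe_zero, Pi.zero_apply]
    split_ifs with h
    · obtain ⟨i, rfl⟩ := h
      have := hP'E i
      omega
    · have := hE P
      simp only [Finsupp.coe_zero, Pi.zero_apply] at this
      omega
  have hEE' : E = E' := by
    ext P
    have h0 : Finsupp.mapDomain D.r (E - E') (D.r P) = 0 := by
      rw [mapDomain_sub', Finsupp.sub_apply, hEr, hE'r, sub_self]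
    have := eq_zero_of_mapDomain_eq_zero D.r hdiff h0 (a := P) rfl
    rw [Finsupp.sub_apply] at this
    omega
  refine ⟨fun i => S.coord i (hP'r i), ?_⟩
  have hET : S.Ediv (fun i => S.coord i (hP'r i)) = E := by
    rw [hEE', hE'def, Ediv]
    refine Finset.sum_congr rfl fun i _ => ?_
    rw [S.pt_coord]
  rw [kap, mk_eq_mk_iff]
  refine ⟨f⁻¹, inv_ne_zero hf, fun P => ?_⟩
  show ((D' : Divisor L F) - (S.Ediv (fun i => S.coord i (hP'r i)) - S.D0)) P = _
  rw [hET, hEdef, Place.ord_inv]
  simp only [Finsupp.sub_apply, Finsupp.add_apply, divOf_apply]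
  ring

end NSSystem

/-! ### the reduction homomorphism on `Pic0` and its kernel -/

variable (D)

theorem degree_mapDomain (E : Divisor L F) :
    Divisor.degree (Finsupp.mapDomain D.r E) = Divisor.degree E := by
  have h : (Divisor.degree (K := k) (F := Ft)).comp (Finsupp.mapDomain.addMonoidHom D.r)
      = Divisor.degree (K := L) (F := F) := by
    apply Finsupp.addHom_ext
    intro P n
    rw [AddMonoidHom.comp_apply, Finsupp.mapDomain.addMonoidHom_apply, Finsupp.mapDomain_single,
      degree_single D.Hk, degree_single D.HL]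
  exact DFunLike.congr_fun h E

/-- reduction of divisors of degree zero. -/
def redDegZero : Divisor.degZero (K := L) (F := F) →+ Divisor.degZero (K := k) (F := Ft) where
  toFun E := ⟨Finsupp.mapDomain D.r (E : Divisor L F), by
    rw [Divisor.mem_degZero, degree_mapDomain, Divisor.mem_degZero.mp E.2]⟩
  map_zero' := by
    apply Subtype.ext
    simp
  map_add' E E' := by
    apply Subtype.ext
    simp [Finsupp.mapDomain_add]

@[simp] theorem coe_redDegZero (E : Divisor.degZero (K := L) (F := F)) :
    ((redDegZero D E : Divisor.degZero (K := k) (F := Ft)) : Divisor k Ft)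
      = Finsupp.mapDomain D.r (E : Divisor L F) := rfl

/-- **the reduction homomorphism** `Pic0 (F / L) → Pic0 (Ft / k)`. -/
def redPic : Pic0 L F →+ Pic0 k Ft :=
  QuotientAddGroup.map _ _ (redDegZero D) (by
    rintro E hE
    rw [AddSubgroup.mem_comap, AddSubgroup.mem_addSubgroupOf, Divisor.mem_principal]
    rw [AddSubgroup.mem_addSubgroupOf, Divisor.mem_principal] at hE
    exact isPrincipal_mapDomain D hE)

theorem redPic_mk (E : Divisor.degZero (K := L) (F := F)) :
    redPic D (Pic0.mk E) = Pic0.mk (redDegZero D E) := rfl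

theorem redPic_mk_eq_zero_iff (E : Divisor.degZero (K := L) (F := F)) :
    redPic D (Pic0.mk E) = 0 ↔ Divisor.IsPrincipal (Finsupp.mapDomain D.r (E : Divisor L F)) := by
  rw [redPic_mk]
  unfold Pic0.mk
  rw [QuotientAddGroup.eq_zero_iff, AddSubgroup.mem_addSubgroupOf, Divisor.mem_principal,
    coe_redDegZero]

variable {D}

namespace NSSystem

theorem redPic_kap (T : Fin g → mA D) : redPic D (S.kap T) = 0 := by
  rw [kap, redPic_mk_eq_zero_iff, S.mapDomain_kapDiv]
  exact (Divisor.principal (K := k) (F := Ft)).zero_mem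

/-- **(K)**: the kernel of reduction is the polydisc `m_A^g`, through `T ↦ [E(T) − D0]`. -/
def kerEquiv
    (hRR : ∀ E : Divisor L F, Divisor.degree E = g → ∃ f : F, f ≠ 0 ∧ ∀ P, -(E P) ≤ P.ord f) :
    (Fin g → mA D) ≃ (redPic D).ker :=
  Equiv.ofBijective (fun T => ⟨S.kap T, (AddMonoidHom.mem_ker).mpr (S.redPic_kap T)⟩) (by
    constructor
    · intro T T' h
      exact S.kap_injective (congrArg Subtype.val h)
    · rintro ⟨x, hx⟩
      obtain ⟨E, rfl⟩ := Pic0.mk_surjective x
      rw [AddMonoidHom.mem_ker, redPic_mk_eq_zero_iff] at hx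
      obtain ⟨T, hT⟩ := S.exists_kap_eq hRR E hx
      exact ⟨T, Subtype.ext hT⟩)

@[simp] theorem coe_kerEquiv
    (hRR : ∀ E : Divisor L F, Divisor.degree E = g → ∃ f : F, f ≠ 0 ∧ ∀ P, -(E P) ≤ P.ord f)
    (T : Fin g → mA D) : ((S.kerEquiv hRR T : (redPic D).ker) : Pic0 L F) = S.kap T := rfl

theorem kap_zero : S.kap 0 = 0 := by
  have : S.kapDiv 0 = 0 := by
    apply Subtype.ext
    show S.Ediv 0 - S.D0 = 0
    rw [S.Ediv_zero, sub_self]
  rw [kap, this]
  rfl

end NSSystem

end

end Fermat.Agent.FF.KER.Ker0
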