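/-
Programme FF (S19), chapter KER (F4, lead): **the group law on the kernel of reduction, in divisor
form** — the geometric half of (FG).  Abstract over `RedDatum`.

For a non-special system `S` and a divisor `B` whose reduction is `−D~0(S)`:
* `exists_Ediv_eq` : an effective `E` reducing to `D~0(S)` is `E(T)` for a (unique) `T ∈ m_A^g`;
* `exists_residual` : a nonzero `s` with `div s ≥ B` has `div s = B + E_S(T)` ("residual divisor");
* `residual_unique` : `T` does not depend on `s`, and `s` is unique up to a constant (`dim = 1`);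
* `exists_section` : such an `s` exists (Riemann's inequality `hRR`, `deg (−B) = g`).

Two steps (S1): with two non-special systems `S0` (coordinates of the kernel) and `S1` (auxiliary),
`B1 := E0(T) + E0(T') − 2 D0 − D1` (reduction `−D~1`) has residual `ζ` in the system `S1`, and
`B2 := E1(ζ) − D0 − D1` (reduction `−D~0`) has residual `T''` in the system `S0`; then
`kap T + kap T' = kap T''` (`kap_add`, `exists_add`).
-/
import Mathlib
import Fermat.Agent.FF.KER.Ker0

set_option autoImplicit false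
set_option linter.unusedSectionVars false
set_option linter.style.longLine false

namespace Fermat.Agent.FF.KER.Add0

open AlgebraicCurve Fermat.Agent.X0.FF Fermat.Agent.RR.LSpace Fermat.Agent.MW.EMB.Value6
open Fermat.Agent.FF.RED.RedDatum7 Fermat.Agent.FF.RED.Disc7 Fermat.Agent.FF.KER.Ker0

noncomputable section

variable {L F k Ft : Type*} [Field L] [Field F] [Algebra L F] [Field k] [Field Ft] [Algebra k Ft]
variable {D : RedDatum L F k Ft} {g : ℕ}

/-- An effective divisor reducing to `D~0` is `E(T)`. -/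
theorem exists_Ediv_eq (S : NSSystem D g) (E : Divisor L F) (hE : 0 ≤ E)
    (hEr : ∀ Q', Finsupp.mapDomain D.r E Q' = S.redDiv Q') : ∃ T : Fin g → mA D, S.Ediv T = E := by
  classical
  have hex : ∀ i : Fin g, ∃ P' : Place L F, D.r P' = S.Q i ∧ 1 ≤ E P' := by
    intro i
    have h1 := hEr (S.Q i)
    rw [S.redDiv_apply_Q, RedDatum.mapDomain_apply_eq_sum] at h1
    have hne : (E.support.filter (fun P => D.r P = S.Q i)).Nonempty := by
      rw [Finset.nonempty_iff_ne_empty]
      intro hemp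
      rw [hemp, Finset.sum_empty] at h1
      exact zero_ne_one h1
    obtain ⟨P', hP'⟩ := hne
    rw [Finset.mem_filter, Finsupp.mem_support_iff] at hP'
    refine ⟨P', hP'.2, ?_⟩
    have := hE P'
    simp only [Finsupp.coe_zero, Pi.zero_apply] at this
    omega
  choose P' hP'r hP'E using hex
  have hP'inj : Function.Injective P' := by
    intro i j hij
    apply S.inj
    show S.Q i = S.Q j
    rw [← hP'r i, ← hP'r j, hij]
  set E' : Divisor L F := ∑ i, Finsupp.single (P' i) (1 : ℤ) with hE'def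
  have hE'apply : ∀ P, E' P = if ∃ i, P' i = P then 1 else 0 := by
    intro P
    rw [hE'def, Finsupp.finsetSum_apply]
    split_ifs with h
    · obtain ⟨i, rfl⟩ := h
      rw [Finset.sum_eq_single i]
      · simp
      · intro j _ hji
        rw [Finsupp.single_apply, if_neg]
        intro h
        exact hji (hP'inj h)
      · intro h; exact absurd (Finset.mem_univ i) h
    · push Not at h
      exact Finset.sum_eq_zero fun i _ => by rw [Finsupp.single_apply, if_neg (h i)]
  have hE'r : Finsupp.mapDomain D.r E' = S.redDiv := by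
    rw [hE'def, NSSystem.redDiv, Finsupp.mapDomain_finsetSum]
    refine Finset.sum_congr rfl fun i _ => ?_
    rw [Finsupp.mapDomain_single, hP'r]
  have hdiff : 0 ≤ E - E' := by
    intro P
    rw [Finsupp.sub_apply, hE'apply]
    simp only [Finsupp.coe_zero, Pi.zero_apply]
    split_ifs with h
    · obtain ⟨i, rfl⟩ := h
      have := hP'E i
      omega
    · have := hE P
      simp only [Finsupp.coe_zero, Pi.zero_apply] at this
      omega
  have hEE' : E = E' := by
    ext P
    have h0 : Finsupp.mapDomain D.r (E - E') (D.r P) = 0 := by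
      rw [mapDomain_sub', Finsupp.sub_apply, hEr, hE'r, sub_self]
    have := eq_zero_of_mapDomain_eq_zero D.r hdiff h0 (a := P) rfl
    rw [Finsupp.sub_apply] at this
    omega
  refine ⟨fun i => S.coord i (hP'r i), ?_⟩
  rw [hEE', hE'def, NSSystem.Ediv]
  refine Finset.sum_congr rfl fun i _ => ?_
  rw [S.pt_coord]

/-- **Residual divisor.**  If `B` reduces to `−D~0(S)` and `s ≠ 0` has `div s ≥ B`, then
`div s = B + E_S(T)` for some `T ∈ m_A^g`. -/
theorem exists_residual (S : NSSystem D g) (B : Divisor L F)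
    (hBr : ∀ Q', Finsupp.mapDomain D.r B Q' = -(S.redDiv Q')) {s : F} (hs : s ≠ 0)
    (hsB : ∀ P : Place L F, B P ≤ P.ord s) :
    ∃ T : Fin g → mA D, ∀ P : Place L F, P.ord s = B P + S.Ediv T P := by
  set Z : Divisor L F := divOf D.HL hs - B with hZdef
  have hZ : 0 ≤ Z := by
    intro P
    rw [hZdef, Finsupp.sub_apply, divOf_apply]
    have := hsB P
    simp only [Finsupp.coe_zero, Pi.zero_apply]
    omega
  obtain ⟨st, hst, hsred⟩ := exists_redFun D hs
  have hmapZ : ∀ Q', Finsupp.mapDomain D.r Z Q' = Q'.ord st + S.redDiv Q' := by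
    intro Q'
    rw [hZdef, mapDomain_sub', Finsupp.sub_apply, hsred _ (fun P => divOf_apply D.HL hs P), hBr]
    ring
  have hnn := mapDomain_nonneg D.r hZ
  have hzero : ∀ Q' : Place k Ft, Q'.ord st = 0 :=
    S.ord_eq_zero_of_le hst (fun Q' => by
      have := hnn Q'
      rw [hmapZ] at this
      simp only [Finsupp.coe_zero, Pi.zero_apply] at this
      omega)
  obtain ⟨T, hT⟩ := exists_Ediv_eq S Z hZ (fun Q' => by rw [hmapZ, hzero, zero_add])
  refine ⟨T, fun P => ?_⟩
  rw [hT, hZdef, Finsupp.sub_apply, divOf_apply]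
  ring

/-- The residual divisor does not depend on the section, and the section is unique up to a
constant: the space of sections is one-dimensional. -/
theorem residual_unique (S : NSSystem D g) (B : Divisor L F) {s s' : F} (hs : s ≠ 0) (hs' : s' ≠ 0)
    {T T' : Fin g → mA D} (hT : ∀ P : Place L F, P.ord s = B P + S.Ediv T P)
    (hT' : ∀ P : Place L F, P.ord s' = B P + S.Ediv T' P) :
    T = T' ∧ ∃ c : L, c ≠ 0 ∧ s' = algebraMap L F c * s := by
  have hq : s' / s ≠ 0 := div_ne_zero hs' hs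
  have hord : ∀ P : Place L F, P.ord (s' / s) = S.Ediv T' P - S.Ediv T P := by
    intro P
    rw [div_eq_mul_inv, P.ord_mul hs' (inv_ne_zero hs), Place.ord_inv, hT, hT']
    ring
  obtain ⟨c, hc⟩ := const_of_le S (S.Ediv T) (S.Ediv_nonneg T)
    (fun Q' => by rw [S.mapDomain_Ediv]) hq (fun P => by
      rw [hord P]
      have := S.Ediv_nonneg T' P
      simp only [Finsupp.coe_zero, Pi.zero_apply] at this
      omega)
  have hc0 : c ≠ 0 := by
    rintro rfl
    rw [map_zero] at hc
    exact hq hc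
  refine ⟨?_, c, hc0, ?_⟩
  · apply S.Ediv_injective
    ext P
    have := hord P
    rw [hc, ffp_ord_algebraMap] at this
    omega
  · rw [← hc, div_mul_cancel₀ _ hs]

/-- Existence of a section (Riemann's inequality for the divisor `−B` of degree `g`). -/
theorem exists_section
    (hRR : ∀ E : Divisor L F, Divisor.degree E = g → ∃ f : F, f ≠ 0 ∧ ∀ P, -(E P) ≤ P.ord f)
    (B : Divisor L F) (hdeg : Divisor.degree B = -(g : ℤ)) :
    ∃ s : F, s ≠ 0 ∧ ∀ P : Place L F, B P ≤ P.ord s := by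
  obtain ⟨f, hf, h⟩ := hRR (-B) (by rw [map_neg, hdeg, neg_neg])
  refine ⟨f, hf, fun P => ?_⟩
  have := h P
  rwa [Finsupp.neg_apply, neg_neg] at this

/-! ### the two steps -/

variable (S0 S1 : NSSystem D g)

/-- the divisor of conditions of step 1: `E0(T) + E0(T') − 2 D0 − D1`. -/
def B1 (T T' : Fin g → mA D) : Divisor L F :=
  S0.Ediv T + S0.Ediv T' - (2 : ℤ) • S0.D0 - S1.D0

/-- the divisor of conditions of step 2: `E1(ζ) − D0 − D1`. -/
def B2 (ζ : Fin g → mA D) : Divisor L F := S1.Ediv ζ - S0.D0 - S1.D0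

theorem mapDomain_D0 (S : NSSystem D g) : Finsupp.mapDomain D.r S.D0 = S.redDiv := by
  rw [← S.Ediv_zero, S.mapDomain_Ediv]

theorem mapDomain_B1 (T T' : Fin g → mA D) (Q' : Place k Ft) :
    Finsupp.mapDomain D.r (B1 S0 S1 T T') Q' = -(S1.redDiv Q') := by
  rw [B1, mapDomain_sub', mapDomain_sub', Finsupp.mapDomain_add, S0.mapDomain_Ediv,
    S0.mapDomain_Ediv, mapDomain_D0]
  have : Finsupp.mapDomain D.r ((2 : ℤ) • S0.D0) = (2 : ℤ) • S0.redDiv := by
    rw [← mapDomain_D0 S0]
    exact map_zsmul (Finsupp.mapDomain.addMonoidHom D.r) 2 S0.D0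
  rw [this]
  simp only [Finsupp.sub_apply, Finsupp.add_apply, Finsupp.smul_apply, smul_eq_mul]
  ring

theorem mapDomain_B2 (ζ : Fin g → mA D) (Q' : Place k Ft) :
    Finsupp.mapDomain D.r (B2 S0 S1 ζ) Q' = -(S0.redDiv Q') := by
  rw [B2, mapDomain_sub', mapDomain_sub', S1.mapDomain_Ediv, mapDomain_D0, mapDomain_D0]
  simp only [Finsupp.sub_apply]
  ring

theorem degree_B1 (T T' : Fin g → mA D) : Divisor.degree (B1 S0 S1 T T') = -(g : ℤ) := by
  rw [B1, map_sub, map_sub, map_add, map_zsmul, S0.degree_Ediv, S0.degree_Ediv, S0.degree_D0,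
    S1.degree_D0]
  simp only [smul_eq_mul]
  ring

theorem degree_B2 (ζ : Fin g → mA D) : Divisor.degree (B2 S0 S1 ζ) = -(g : ℤ) := by
  rw [B2, map_sub, map_sub, S1.degree_Ediv, S0.degree_D0, S1.degree_D0]
  ring

/-- **The addition law in divisor form**: if `s` realises step 1 with residual `ζ` and `z` realises
step 2 with residual `T''`, then `kap T + kap T' = kap T''`. -/
theorem kap_add {T T' ζ T'' : Fin g → mA D} {s z : F} (hs : s ≠ 0) (hz : z ≠ 0)
    (hsdiv : ∀ P : Place L F, P.ord s = B1 S0 S1 T T' P + S1.Ediv ζ P)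
    (hzdiv : ∀ P : Place L F, P.ord z = B2 S0 S1 ζ P + S0.Ediv T'' P) :
    S0.kap T + S0.kap T' = S0.kap T'' := by
  rw [NSSystem.kap, NSSystem.kap, NSSystem.kap, ← Pic0.mk_add, NSSystem.mk_eq_mk_iff]
  refine ⟨z / s, div_ne_zero hz hs, fun P => ?_⟩
  rw [div_eq_mul_inv, P.ord_mul hz (inv_ne_zero hs), Place.ord_inv, hsdiv, hzdiv, B1, B2]
  show (S0.Ediv T'' - S0.D0 - ((S0.Ediv T - S0.D0) + (S0.Ediv T' - S0.D0))) P = _
  simp only [Finsupp.sub_apply, Finsupp.add_apply, Finsupp.smul_apply, smul_eq_mul]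
  ring

/-- **(S1), existence**: the two steps can always be carried out. -/
theorem exists_add
    (hRR : ∀ E : Divisor L F, Divisor.degree E = g → ∃ f : F, f ≠ 0 ∧ ∀ P, -(E P) ≤ P.ord f)
    (T T' : Fin g → mA D) :
    ∃ (ζ T'' : Fin g → mA D) (s z : F), s ≠ 0 ∧ z ≠ 0 ∧
      (∀ P : Place L F, P.ord s = B1 S0 S1 T T' P + S1.Ediv ζ P) ∧
      (∀ P : Place L F, P.ord z = B2 S0 S1 ζ P + S0.Ediv T'' P) ∧
      S0.kap T + S0.kap T' = S0.kap T'' := by
  obtain ⟨s, hs, hsB⟩ := exists_section hRR (B1 S0 S1 T T') (degree_B1 S0 S1 T T')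
  obtain ⟨ζ, hζ⟩ := exists_residual S1 (B1 S0 S1 T T') (mapDomain_B1 S0 S1 T T') hs hsB
  obtain ⟨z, hz, hzB⟩ := exists_section hRR (B2 S0 S1 ζ) (degree_B2 S0 S1 ζ)
  obtain ⟨T'', hT''⟩ := exists_residual S0 (B2 S0 S1 ζ) (mapDomain_B2 S0 S1 ζ) hz hzB
  exact ⟨ζ, T'', s, z, hs, hz, hζ, hT'', kap_add S0 S1 hs hz hζ hT''⟩

/-- **(S1), criterion used by F5**: ANY nonzero section of step 1 with `div s ≥ B1` and ANY nonzero
section of step 2 with `div z ≥ B2(ζ)` (for the residual `ζ` of `s`) compute the sum. -/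
theorem kap_add_of_sections {T T' : Fin g → mA D} {s : F} (hs : s ≠ 0)
    (hsB : ∀ P : Place L F, B1 S0 S1 T T' P ≤ P.ord s) :
    ∃ ζ : Fin g → mA D, (∀ P : Place L F, P.ord s = B1 S0 S1 T T' P + S1.Ediv ζ P) ∧
      ∀ {z : F}, z ≠ 0 → (∀ P : Place L F, B2 S0 S1 ζ P ≤ P.ord z) →
        ∃ T'' : Fin g → mA D, (∀ P : Place L F, P.ord z = B2 S0 S1 ζ P + S0.Ediv T'' P) ∧
          S0.kap T + S0.kap T' = S0.kap T'' := by
  obtain ⟨ζ, hζ⟩ := exists_residual S1 (B1 S0 S1 T T') (mapDomain_B1 S0 S1 T T') hs hsB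
  refine ⟨ζ, hζ, fun {z} hz hzB => ?_⟩
  obtain ⟨T'', hT''⟩ := exists_residual S0 (B2 S0 S1 ζ) (mapDomain_B2 S0 S1 ζ) hz hzB
  exact ⟨T'', hT'', kap_add S0 S1 hs hz hζ hT''⟩

end

end Fermat.Agent.FF.KER.Add0
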