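/-
Programme FF (S19), chapter KER (F4, lead): **Galois equivariance of the polydisc coordinates**.

`γ : SemilinearAut L F` permuting the residue discs (`DiscCompat`) and fixing the centres and the
uniformizers of a non-special system `S` (`Fixes`):
* `smul_pt` : `γ • S.pt i c = S.pt i c'` when `c' = baseAut γ c`;
* `exists_act` : `baseAut γ c ∈ m_A` for `c ∈ m_A` (from the geometry, no hypothesis on `A`);
* `smul_Ediv`, `smul_D0`, `smul_kap` : `γ • kap T = kap T'` when `T' i = baseAut γ (T i)`;
* `coord_fixed_of_smul_eq` : the coordinates of a `γ`-fixed point of the kernel are `γ`-fixed.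
-/
import Mathlib
import Fermat.Agent.FF.KER.Ker0
import Fermat.Agent.MW.EMB.GalVal1

set_option autoImplicit false
set_option linter.unusedSectionVars false
set_option linter.style.longLine false

namespace Fermat.Agent.FF.KER.KerGal0

open AlgebraicCurve Fermat.Agent.X0.FF Fermat.Agent.RR.LSpace Fermat.Agent.MW.EMB.Value6
open Fermat.Agent.FF.RED.RedDatum7 Fermat.Agent.FF.RED.Disc7 Fermat.Agent.FF.KER.Ker0

noncomputable section

variable {L F k Ft : Type*} [Field L] [Field F] [Algebra L F] [Field k] [Field Ft] [Algebra k Ft]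
variable {D : RedDatum L F k Ft} {g : ℕ}

/-- `γ` permutes the residue discs. -/
def DiscCompat (D : RedDatum L F k Ft) (γ : SemilinearAut L F) : Prop :=
  ∀ P P' : Place L F, D.r P = D.r P' → D.r (γ • P) = D.r (γ • P')

/-- `γ` fixes the centres and the uniformizers of the system. -/
structure Fixes (S : NSSystem D g) (γ : SemilinearAut L F) : Prop where
  P : ∀ i, γ • S.P i = S.P i
  u : ∀ i, γ • (S.u i : F) = (S.u i : F)

variable {S : NSSystem D g} {γ : SemilinearAut L F}

theorem r_smul_of_mem_disc (hγ : DiscCompat D γ) (hS : Fixes S γ) (i : Fin g) {P' : Place L F}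
    (hP' : D.r P' = S.Q i) : D.r (γ • P') = S.Q i := by
  have := hγ P' (S.P i) hP'
  rw [hS.P i] at this
  exact this

theorem valF_smul_u (hS : Fixes S γ) (i : Fin g) (P' : Place L F) :
    valF D.HL (γ • P') (S.u i : F) = SemilinearAut.baseAut γ (valF D.HL P' (S.u i : F)) := by
  have := Fermat.Agent.MW.EMB.GalVal1.valF_smul D.HL γ P' (S.u i : F)
  rwa [hS.u i] at this

/-- `γ` moves the point of coordinate `c` to the point of coordinate `γ c`. -/
theorem smul_pt (hγ : DiscCompat D γ) (hS : Fixes S γ) (i : Fin g) {c c' : mA D}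
    (hc : ((c' : D.A) : L) = SemilinearAut.baseAut γ ((c : D.A) : L)) :
    γ • S.pt i c = S.pt i c' := by
  refine (S.good i).eq_of_valF_eq (r_smul_of_mem_disc hγ hS i (S.r_pt i c)) (S.r_pt i c') ?_
  rw [valF_smul_u hS, S.valF_pt, S.valF_pt, hc]

/-- `m_A` is stable under the base automorphism of `γ` (seen on the disc of `P i`). -/
theorem exists_act (hγ : DiscCompat D γ) (hS : Fixes S γ) (i : Fin g) (c : mA D) :
    ∃ c' : mA D, ((c' : D.A) : L) = SemilinearAut.baseAut γ ((c : D.A) : L) := by
  refine ⟨S.coord i (r_smul_of_mem_disc hγ hS i (S.r_pt i c)), ?_⟩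
  show valF D.HL (γ • S.pt i c) (S.u i : F) = _
  rw [valF_smul_u hS, S.valF_pt]

theorem smul_Ediv (hγ : DiscCompat D γ) (hS : Fixes S γ) {T T' : Fin g → mA D}
    (hT : ∀ i, ((T' i : D.A) : L) = SemilinearAut.baseAut γ ((T i : D.A) : L)) :
    γ • S.Ediv T = S.Ediv T' := by
  rw [NSSystem.Ediv, NSSystem.Ediv, Finset.smul_sum]
  refine Finset.sum_congr rfl fun i _ => ?_
  rw [SemilinearAut.smul_single, smul_pt hγ hS i (hT i)]

theorem smul_D0 (hS : Fixes S γ) : γ • S.D0 = S.D0 := by
  rw [NSSystem.D0, Finset.smul_sum]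
  refine Finset.sum_congr rfl fun i _ => ?_
  rw [SemilinearAut.smul_single, hS.P i]

/-- **(K), equivariance**: the coordinates of `γ • x` are the `γ`-conjugates of the coordinates of
`x`. -/
theorem smul_kap (hγ : DiscCompat D γ) (hS : Fixes S γ) {T T' : Fin g → mA D}
    (hT : ∀ i, ((T' i : D.A) : L) = SemilinearAut.baseAut γ ((T i : D.A) : L)) :
    γ • S.kap T = S.kap T' := by
  rw [NSSystem.kap, NSSystem.kap, SemilinearAut.pic0_smul_mk]
  congr 1
  apply Subtype.ext
  rw [SemilinearAut.coe_degZeroSMulHom]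
  show γ • (S.Ediv T - S.D0) = S.Ediv T' - S.D0
  rw [smul_sub, smul_Ediv hγ hS hT, smul_D0 hS]

/-- the coordinates of a `γ`-fixed point of the kernel of reduction are `γ`-fixed. -/
theorem coord_fixed_of_smul_eq (hγ : DiscCompat D γ) (hS : Fixes S γ) {T : Fin g → mA D}
    (hfix : γ • S.kap T = S.kap T) (i : Fin g) :
    SemilinearAut.baseAut γ ((T i : D.A) : L) = ((T i : D.A) : L) := by
  choose T' hT' using fun j => exists_act hγ hS j (T j)
  have h1 := smul_kap hγ hS hT'
  rw [hfix] at h1
  have h2 := S.kap_injective h1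
  rw [← hT' i, ← h2]

/-- conversely, fixed coordinates give a fixed point. -/
theorem smul_kap_of_fixed (hγ : DiscCompat D γ) (hS : Fixes S γ) {T : Fin g → mA D}
    (hT : ∀ i, SemilinearAut.baseAut γ ((T i : D.A) : L) = ((T i : D.A) : L)) :
    γ • S.kap T = S.kap T :=
  smul_kap hγ hS (fun i => (hT i).symm)

end

end Fermat.Agent.FF.KER.KerGal0
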